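/-
S44lib / Q5 / C1 / Cx (helper3) — Project LSq, block Q5-C1, the complex side:
for `f ∈ S₂(Γ₀(M))` the function `phi f = f / K ∈ F_M = Frac (WH0 Γ₀(M))` (`K = E₄²E₆/Δ = -θ j`) is a
regular differential `phi f · dj` in the sense of `RRgen.Omega` for the charts `B_M = WH0 Γ₀(M)` and
`B_∞ = Binf ℂ B_M` (from R7: `finCond_phi`, `infCond_phi`, and Theorem A's trace-dual dictionary).
-/
import Mathlib
import Fermat.Agent.S18lib.RRgen.Canonical
import Fermat.Agent.ProgramR.S20.Final
import Fermat.Agent.ProgramR.Forms.R7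

set_option autoImplicit false
set_option linter.unusedSectionVars false
set_option linter.style.haveILetI false

noncomputable section

namespace Fermat.Agent.S44lib.Q5.C1

open Module Polynomial IsDedekindDomain CongruenceSubgroup nonZeroDivisors
open Fermat.Agent.ProgramR Fermat.Agent.ProgramR.RR Fermat.Agent.ProgramR.Alg
open Fermat.Agent.ProgramR.Forms
open Fermat.Agent.S18lib Fermat.Agent.S18lib.RRgen

section General

variable (K : Type*) [Field K] [IsAlgClosed K]
  (F : Type*) [Field F] [Algebra (RatFunc K) F] [FiniteDimensional (RatFunc K) F]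
  [Algebra.IsSeparable (RatFunc K) F] [Algebra K F] [IsScalarTower K (RatFunc K) F]
  (B : Type*) [CommRing B] [IsDedekindDomain B] [Algebra K[X] B] [Module.Finite K[X] B]
  [IsTorsionFree K[X] B] [Algebra B F] [IsFractionRing B F] [Algebra K[X] F]
  [IsScalarTower K[X] (RatFunc K) F] [IsScalarTower K[X] B F]
  [Algebra K B] [IsScalarTower K B F]
  (Binf : Type*) [CommRing Binf] [IsDedekindDomain Binf] [Algebra (Ainf K) Binf]
  [Module.Finite (Ainf K) Binf] [IsTorsionFree (Ainf K) Binf] [Algebra Binf F]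
  [IsFractionRing Binf F] [Algebra (Ainf K) F] [IsScalarTower (Ainf K) (RatFunc K) F]
  [IsScalarTower (Ainf K) Binf F]
  [Algebra K Binf] [IsScalarTower K Binf F]

/-- trace-dual form of `Ω(0)`: `h ∈ B^∨` and `X² h ∈ B_∞^∨` -/
theorem mem_Omega_zero_of_traceDual (h : F)
    (hfin : h ∈ Submodule.traceDual K[X] (RatFunc K) (1 : Submodule B F))
    (hinf : ((RatFunc.X : RatFunc K) ^ 2) • h ∈
      Submodule.traceDual (Ainf K) (RatFunc K) (1 : Submodule Binf F)) :
    h ∈ Omega K F B Binf 0 := by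
  rw [Omega, mem_differentialSubspace]
  refine ⟨fun x hx => ?_, fun x hx => ?_⟩
  · have hx' : x ∈ (1 : FractionalIdeal B⁰ F) := by
      rw [uE_spec, IFin_zero] at hx
      exact hx
    obtain ⟨b, rfl⟩ := (FractionalIdeal.mem_one_iff _).mp hx'
    have h1 := (Submodule.mem_traceDual.mp hfin) (algebraMap B F b)
      (Submodule.mem_one.mpr ⟨b, rfl⟩)
    rw [Algebra.traceForm_apply] at h1
    exact h1
  · have hx' : x ∈ (1 : FractionalIdeal Binf⁰ F) := by
      rw [vE_spec, IInf_zero] at hx
      exact hx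
    obtain ⟨b, rfl⟩ := (FractionalIdeal.mem_one_iff _).mp hx'
    have h1 := (Submodule.mem_traceDual.mp hinf) (algebraMap Binf F b)
      (Submodule.mem_one.mpr ⟨b, rfl⟩)
    rw [Algebra.traceForm_apply, smul_mul_assoc, map_smul, smul_eq_mul] at h1
    obtain ⟨a, ha⟩ := h1
    rw [← ha]
    exact a.2

end General

section Gamma0

attribute [local instance] Genus.cosetFintype

variable (M : ℕ) [NeZero M]

instance isScalarTower_const_ainf_FN : IsScalarTower ℂ (Ainf ℂ) (FN M) :=
  Canonical.isScalarTower_const_ainf ℂ (FN M)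

instance algebra_const_Binf : Algebra ℂ (Binf ℂ (BN M)) := Subalgebra.algebra' (Binf ℂ (BN M))

instance isScalarTower_const_Binf_FN : IsScalarTower ℂ (Binf ℂ (BN M)) (FN M) :=
  IsScalarTower.of_algebraMap_eq fun _ => rfl

instance isSeparable_FN : Algebra.IsSeparable (RatFunc ℂ) (FN M) := by
  haveI : Algebra.IsAlgebraic (RatFunc ℂ) (FN M) := Algebra.IsAlgebraic.of_finite _ _
  exact Algebra.IsAlgebraic.isSeparable_of_perfectField

/-- **the complex side of C1**: `phi f · dj` is a regular differential. -/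
theorem phi_mem_Omega (f : CuspForm (Gamma0 M) 2) :
    phi M f ∈ Omega ℂ (FN M) (BN M) (Binf ℂ (BN M)) 0 := by
  by_cases hh : phi M f = 0
  · rw [hh]; exact zero_mem _
  refine mem_Omega_zero_of_traceDual ℂ (FN M) (BN M) (Binf ℂ (BN M)) _ ?_ ?_
  · exact (mem_traceDual_iff_finCond ℂ (FN M) (BN M) hh).mpr (finCond_phi M (S20.dFin_Gamma0 M) f)
  · exact (smul_mem_traceDual_iff_infCond ℂ (FN M) (Binf ℂ (BN M)) hh).mpr
      (infCond_phi M (S20.dInf_Gamma0 M) f)

end Gamma0

end Fermat.Agent.S44lib.Q5.C1
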