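/-
S44 library, block Q5/C1 (helper8): **descent of membership from `L ⊗ F₀` to `F₀`**.

`F₀ ⊆ ℚ((q))` a subfield, `L / ℚ` a field extension, `laurentBaseChange L F₀ = L(coeffEmb '' F₀)
⊆ L((q))`.  A series `x ∈ ℚ((q))` whose image in `L((q))` lies in `laurentBaseChange L F₀` lies in
`F₀` (`mem_of_coeffEmb_mem_laurentBaseChange`).

Proof: `coeffEmb x = r / s` with `r, s` in the `L`-span of `coeffEmb '' F₀`; for a `ℚ`-linear
functional `λ : L → ℚ`, the coefficientwise map `Λ` sends this span into `F₀` and satisfies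
`Λ (coeffEmb x * y) = x * Λ y` on it; choose `λ` with `Λ s ≠ 0`; then `x = Λ r / Λ s`.
-/
import Mathlib
import Fermat.Prelude.Def_ModularCurve_LaurentCoeff

set_option autoImplicit false
set_option linter.unusedSectionVars false

noncomputable section

namespace Fermat.Agent.S44lib.Q5.C1

open ModularCurve HahnSeries

section

variable (L : Type*) [Field L] [Algebra ℚ L]

/-- coefficientwise application of a `ℚ`-linear functional `L → ℚ` -/
def coeffFunctional (lam : L →ₗ[ℚ] ℚ) : LaurentSeries L →+ LaurentSeries ℚ where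
  toFun y := y.map lam
  map_zero' := by ext n; simp
  map_add' y₁ y₂ := by ext n; simp

theorem coeffFunctional_coeff (lam : L →ₗ[ℚ] ℚ) (y : LaurentSeries L) (n : ℤ) :
    (coeffFunctional L lam y).coeff n = lam (y.coeff n) := rfl

theorem coeff_algebraMap_mul_laurent (K : Type*) [Field K] (c : K) (y : LaurentSeries K) (n : ℤ) :
    (algebraMap K (LaurentSeries K) c * y).coeff n = c * y.coeff n := by
  rw [algebraMap_laurentSeries_eq_single, ← HahnSeries.C_apply, HahnSeries.C_mul_eq_smul,
    HahnSeries.coeff_smul, smul_eq_mul]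

/-- `Λ_λ (c · y) = Λ_{λ ∘ (c ·)} y` -/
theorem coeffFunctional_algebraMap_mul (lam : L →ₗ[ℚ] ℚ) (c : L) (y : LaurentSeries L) :
    coeffFunctional L lam (algebraMap L (LaurentSeries L) c * y) =
      coeffFunctional L (lam.comp (LinearMap.mulLeft ℚ c)) y := by
  ext n
  rw [coeffFunctional_coeff, coeffFunctional_coeff, coeff_algebraMap_mul_laurent]
  rfl

/-- the `L`-span of a set of Laurent series, for the module structure of the `L`-algebra
`L((q))` -/
abbrev spanL (S : Set (LaurentSeries L)) : @Submodule L (LaurentSeries L) _ _ Algebra.toModule :=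
  @Submodule.span L (LaurentSeries L) _ _ Algebra.toModule S

/-- `Λ_λ (coeffEmb u) = λ(1) · u` -/
theorem coeffFunctional_coeffEmb (lam : L →ₗ[ℚ] ℚ) (u : LaurentSeries ℚ) :
    coeffFunctional L lam (coeffEmb L u) = algebraMap ℚ (LaurentSeries ℚ) (lam 1) * u := by
  ext n
  rw [coeffFunctional_coeff, coeffEmb_coeff, coeff_algebraMap_mul_laurent, Algebra.algebraMap_eq_smul_one,
    map_smul, smul_eq_mul, mul_comm]

variable (F₀ : IntermediateField ℚ (LaurentSeries ℚ))

/-- the key property on the `L`-span of `coeffEmb '' F₀` -/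
theorem coeffFunctional_span (x : LaurentSeries ℚ) {y : LaurentSeries L}
    (hy : y ∈ spanL L (⇑(coeffEmb L) '' (F₀ : Set (LaurentSeries ℚ)))) :
    ∀ lam : L →ₗ[ℚ] ℚ, coeffFunctional L lam y ∈ F₀ ∧
      coeffFunctional L lam (coeffEmb L x * y) = x * coeffFunctional L lam y := by
  induction hy using Submodule.span_induction with
  | mem y hy =>
    obtain ⟨u, hu, rfl⟩ := hy
    intro lam
    refine ⟨?_, ?_⟩
    · rw [coeffFunctional_coeffEmb]
      exact mul_mem (IntermediateField.algebraMap_mem _ _) hu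
    · rw [← map_mul, coeffFunctional_coeffEmb, coeffFunctional_coeffEmb]
      ring
  | zero =>
    intro lam
    refine ⟨?_, ?_⟩
    · rw [map_zero]; exact zero_mem _
    · rw [mul_zero, map_zero, mul_zero]
  | add y₁ y₂ _ _ h₁ h₂ =>
    intro lam
    refine ⟨?_, ?_⟩
    · rw [map_add]; exact add_mem (h₁ lam).1 (h₂ lam).1
    · rw [mul_add, map_add, map_add, (h₁ lam).2, (h₂ lam).2, mul_add]
  | smul c y _ h =>
    intro lam
    refine ⟨?_, ?_⟩
    · rw [Algebra.smul_def, coeffFunctional_algebraMap_mul]; exact (h _).1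
    · rw [Algebra.smul_def, mul_left_comm, coeffFunctional_algebraMap_mul,
        coeffFunctional_algebraMap_mul, (h _).2]

/-- the `L`-algebra generated by `coeffEmb '' F₀` is its `L`-span -/
theorem adjoin_coeffEmb_image_eq_span :
    Subalgebra.toSubmodule (Algebra.adjoin L (⇑(coeffEmb L) '' (F₀ : Set (LaurentSeries ℚ)))) =
      spanL L (⇑(coeffEmb L) '' (F₀ : Set (LaurentSeries ℚ))) := by
  apply Algebra.adjoin_eq_span_of_subset
  have h1 : Submonoid.closure (⇑(coeffEmb L) '' (F₀ : Set (LaurentSeries ℚ))) ≤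
      (F₀.toSubfield.toSubring.toSubmonoid).map ((coeffEmb L : LaurentSeries ℚ →+* LaurentSeries L) :
        LaurentSeries ℚ →* LaurentSeries L) := by
    rw [Submonoid.closure_le]
    rintro _ ⟨u, hu, rfl⟩
    exact ⟨u, hu, rfl⟩
  intro y hy
  obtain ⟨u, hu, rfl⟩ := h1 hy
  exact @Submodule.subset_span L (LaurentSeries L) _ _ Algebra.toModule _ _ ⟨u, hu, rfl⟩

/-- **descent**: a rational Laurent series whose base change lies in `L · F₀` lies in `F₀` -/
theorem mem_of_coeffEmb_mem_laurentBaseChange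
    (F₀ : IntermediateField ℚ (LaurentSeries ℚ)) (x : LaurentSeries ℚ)
    (hx : coeffEmb L x ∈ laurentBaseChange L F₀) : x ∈ F₀ := by
  classical
  rw [laurentBaseChange, IntermediateField.mem_adjoin_iff_div] at hx
  obtain ⟨r, hr, s, hs, hxrs⟩ := hx
  have hr' : r ∈ spanL L (⇑(coeffEmb L) '' (F₀ : Set (LaurentSeries ℚ))) := by
    rw [← adjoin_coeffEmb_image_eq_span]; exact hr
  have hs' : s ∈ spanL L (⇑(coeffEmb L) '' (F₀ : Set (LaurentSeries ℚ))) := by
    rw [← adjoin_coeffEmb_image_eq_span]; exact hs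
  by_cases hs0 : s = 0
  · rw [hs0, div_zero] at hxrs
    have : x = 0 := (coeffEmb L).injective (by rw [hxrs, map_zero])
    rw [this]; exact zero_mem _
  -- a coefficient of `s` is nonzero
  obtain ⟨n, hn⟩ : ∃ n : ℤ, s.coeff n ≠ 0 := by
    by_contra hall
    push Not at hall
    exact hs0 (HahnSeries.ext (funext fun n => by rw [hall n, HahnSeries.coeff_zero]))
  obtain ⟨lam, hlam⟩ : ∃ lam : L →ₗ[ℚ] ℚ, lam (s.coeff n) ≠ 0 := by
    by_contra hall
    push Not at hall
    exact hn ((Module.forall_dual_apply_eq_zero_iff ℚ (s.coeff n)).1 hall)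
  have hΛs : coeffFunctional L lam s ≠ 0 := by
    intro h0
    apply hlam
    have := congrArg (fun y : LaurentSeries ℚ => y.coeff n) h0
    simpa [coeffFunctional_coeff] using this
  have hmul : coeffEmb L x * s = r := by rw [hxrs, div_mul_cancel₀ _ hs0]
  have h1 := (coeffFunctional_span L F₀ x hs' lam).2
  rw [hmul] at h1
  have hxeq : x = coeffFunctional L lam r / coeffFunctional L lam s := by
    rw [h1, mul_div_cancel_right₀ _ hΛs]
  rw [hxeq]
  exact div_mem (coeffFunctional_span L F₀ x hr' lam).1 (coeffFunctional_span L F₀ x hs' lam).1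

end

end Fermat.Agent.S44lib.Q5.C1
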