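/-
S44lib / Q5 / C1 / QExp  (helper2)  — Project LSq, block Q5-C1: `q`-expansion bookkeeping.

For an integral cusp form `f ∈ S₂(Γ₀(M))`, `f = Σ z_n qⁿ` (`z_n ∈ ℤ`):

* `isUnit_theta_jqInt : IsUnit (θ j_q)` in `ℤ((q))`            (leading coefficient `-1` at `q⁻¹`);
* `yInt z = (Σ z_n qⁿ) / θ(j_q) ∈ ℤ((q))`, `yInt_mul_theta`;
* `laurentExp_kHol : laurentExp 1 (E₄² E₆ / Δ) = - θ(j_q)` over `ℂ`   (`D j = -E₄² E₆ / Δ`);
* **`qExpFN_phi : qExpFN M (phi M f) * θ(j_q) = - Σ z_n qⁿ`** (`zSeries ℂ z` of `Q5/RedInt`) and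
  `qExpFN_phi_yInt : qExpFN M (phi M f) = - (yInt z)_ℂ`: the modular function `phi f ∈ F_M` of
  `ProgramR/Forms/R7` (`f = phi f · K`, `K = E₄² E₆ / Δ`) has the integral `q`-expansion `-yInt z`.
-/
import Fermat.Agent.S44lib.Q5.RedInt
import Fermat.Agent.ProgramR.S20.Final
import Fermat.Agent.ProgramR.Descent.QExpR7
import Fermat.Agent.S28lib.ThetaAnalytic

set_option autoImplicit false
set_option linter.unusedSectionVars false
set_option linter.style.haveILetI false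
set_option linter.unusedVariables false

noncomputable section

namespace Fermat.Agent.S44lib.Q5.C1

open Module Polynomial IsDedekindDomain ModularCurve CongruenceSubgroup UpperHalfPlane
open Fermat.Agent.ProgramR Fermat.Agent.ProgramR.RR Fermat.Agent.ProgramR.Alg
open Fermat.Agent.ProgramR.BarField Fermat.Agent.ProgramR.Forms Fermat.Agent.ProgramR.Descent
open Fermat.Agent.ProgramR.QExp Fermat.Agent.ProgramR.LevelOne
open Fermat.Agent.S18lib Fermat.Agent.S18lib.RRgen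
open Derivative

local notation "Qb" => AlgebraicClosure ℚ

section QExp
attribute [local instance] Genus.cosetFintype
variable (M : ℕ) [NeZero M]

theorem isUnit_theta_jqInt : IsUnit (S28lib.theta ℤ (jqModC ℤ)) := isUnit_theta_jqModC ℤ

/-- `(Σ z_n qⁿ) / θ(j)` over `ℤ` -/
def yInt (z : ℕ → ℤ) : LaurentSeries ℤ :=
  HahnSeries.ofPowerSeries ℤ ℤ (PowerSeries.mk z) * ((isUnit_theta_jqInt.unit⁻¹ : (LaurentSeries ℤ)ˣ) : LaurentSeries ℤ)

theorem yInt_mul_theta (z : ℕ → ℤ) :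
    yInt z * S28lib.theta ℤ (jqModC ℤ) = HahnSeries.ofPowerSeries ℤ ℤ (PowerSeries.mk z) := by
  have h : ((isUnit_theta_jqInt.unit : (LaurentSeries ℤ)ˣ) : LaurentSeries ℤ) =
      S28lib.theta ℤ (jqModC ℤ) := isUnit_theta_jqInt.unit_spec
  rw [yInt, mul_assoc]
  nth_rewrite 2 [← h]
  rw [Units.inv_mul, mul_one]

theorem laurentExp_kHol : laurentExp 1 (Forms.kHol : ℍ → ℂ) = - S28lib.theta ℂ (jqModC ℂ) := by
  have hK : IsMeroAtInfty 1 1 (kHol : ℍ → ℂ) := Descent.isMeroAtInfty_one_kHol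
  have hD : laurentExp 1 (D jInv) = S28lib.theta ℂ (jqModC ℂ) := by
    rw [S28lib.laurentExp_D isMeroAtInfty_jInv, laurentExp_jInv]
  -- `D j = - K`
  have hfun : D jInv = -(kHol : ℍ → ℂ) := by
    funext z
    rw [D_jInv, Pi.neg_apply, kHol_apply]
    ring
  rw [hfun, laurentExp_neg one_pos hK] at hD
  rw [← hD, neg_neg]

/-- the `q`-expansion of an integral cusp form, as a Laurent series -/
theorem ofPowerSeries_qExpansion_eq_zSeries (f : CuspForm (Gamma0 M) 2) (z : ℕ → ℤ)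
    (hz : ∀ n, (z n : ℂ) = ModularFormClass.qCoeff (f : ℍ → ℂ) n) :
    HahnSeries.ofPowerSeries ℤ ℂ (UpperHalfPlane.qExpansion 1 (f : ℍ → ℂ)) = zSeries ℂ z := by
  ext n
  rcases le_or_gt 0 n with hn | hn
  · lift n to ℕ using hn
    rw [zSeries, HahnSeries.ofPowerSeries_apply_coeff, HahnSeries.ofPowerSeries_apply_coeff,
      PowerSeries.coeff_mk, hz n]
    rfl
  · rw [zSeries, ofPowerSeries_coeff_of_neg _ hn, ofPowerSeries_coeff_of_neg _ hn]

/-- **product form** (helper3 #2635): `qExp(phi f) · θ(j_q) = - Σ z_n qⁿ` -/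
theorem qExpFN_phi (f : CuspForm (Gamma0 M) 2) (z : ℕ → ℤ)
    (hz : ∀ n, (z n : ℂ) = ModularFormClass.qCoeff (f : ℍ → ℂ) n) :
    qExpFN M (phi M f) * S28lib.theta ℂ (jqModC ℂ) = - zSeries ℂ z := by
  have h3 := Descent.ofPowerSeries_qExpansion_eq M f
  rw [ofPowerSeries_qExpansion_eq_zSeries M f z hz, laurentExp_kHol] at h3
  linear_combination h3

/-- the same with the inverse of `θ(j_q)` over `ℤ` -/
theorem qExpFN_phi_yInt (f : CuspForm (Gamma0 M) 2) (z : ℕ → ℤ)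
    (hz : ∀ n, (z n : ℂ) = ModularFormClass.qCoeff (f : ℍ → ℂ) n) :
    qExpFN M (phi M f) = - coeffMap (Int.castRingHom ℂ) (yInt z) := by
  have hθ0 : S28lib.theta ℂ (jqModC ℂ) ≠ 0 := theta_jq_ne_zero ℂ
  -- the `q`-expansion of `f` is `(yInt z)_ℂ · θ(j)`
  have h1 : HahnSeries.ofPowerSeries ℤ ℂ (UpperHalfPlane.qExpansion 1 (f : ℍ → ℂ)) =
      coeffMap (Int.castRingHom ℂ) (yInt z) * S28lib.theta ℂ (jqModC ℂ) := by
    have h2 := congrArg (coeffMap (Int.castRingHom ℂ)) (yInt_mul_theta z)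
    rw [map_mul, S28lib.coeffMap_theta, ModularCurve.coeffMap_jqModC] at h2
    rw [h2]
    ext n
    rw [coeffMap_coeff]
    rcases le_or_gt 0 n with hn | hn
    · lift n to ℕ using hn
      rw [HahnSeries.ofPowerSeries_apply_coeff, HahnSeries.ofPowerSeries_apply_coeff,
        PowerSeries.coeff_mk, eq_intCast, hz n]
      rfl
    · rw [ofPowerSeries_coeff_of_neg _ hn, ofPowerSeries_coeff_of_neg _ hn, map_zero]
  have h3 := Descent.ofPowerSeries_qExpansion_eq M f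
  rw [h1, laurentExp_kHol] at h3
  refine mul_right_cancel₀ hθ0 ?_
  linear_combination h3
end QExp

end Fermat.Agent.S44lib.Q5.C1
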