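/-
S44lib / Q5 / C1 / Lift (helper3) — Project LSq, block Q5-C1, THE CHARACTERISTIC ZERO LIFT.

For `f ∈ S₂(Γ₀(M))` with integral `q`-expansion `Σ zₙ qⁿ` there is `h ∈ F̄_M = Q̄(X₀(M))` with
`h · θ(j) = Σ zₙ qⁿ` in `Q̄((q))` and `h dj` a regular differential over `Q̄`
(`h ∈ OmegaOf Q̄ (Gin0.transcendental_jF M)`):

* `y = (Σ zₙ qⁿ)/θ(j) ∈ ℤ((q))` (`θ j` is a unit of `ℤ((q))`), `y_ℚ` its image in `ℚ((q))`;
* `y_ℂ = -qExp(phi f)` lies in the function field over `ℂ`, hence (`Descent`) `y_ℚ ∈ ℚ(X₀(M))`,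
  and `h := y_{Q̄} ∈ F̄_M`;
* `ΦM h = -phi f`, which is a regular differential over `ℂ` (`Cx.phi_mem_Omega`); regularity descends
  along `ΦM` (`BC.mem_Omega_zero_of_map`, trace transfer `BC.trace_map`, `Inst`).
-/
import Mathlib
import Fermat.Agent.S44lib.Q5.BC.Rat
import Fermat.Agent.S44lib.Q5.BC.Trace
import Fermat.Agent.S44lib.Q5.BC.Omega
import Fermat.Agent.S44lib.Q5.C1.Descent
import Fermat.Agent.S44lib.Q5.C1.QExp
import Fermat.Agent.S44lib.Q5.C1.Cx
import Fermat.Agent.S44lib.Q5.C1.Inst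
import Fermat.Agent.S44lib.Q5.RedInt
import Fermat.Agent.S44lib.Q5.OmegaOf
import Fermat.Agent.ProgramR.Descent.AutFF
import Fermat.Agent.S18lib.Gin0.Main

set_option autoImplicit false
set_option linter.unusedSectionVars false
set_option linter.style.haveILetI false

noncomputable section

namespace Fermat.Agent.S44lib.Q5.C1

open Module Polynomial IsDedekindDomain ModularCurve CongruenceSubgroup UpperHalfPlane IntermediateField
open Fermat.Agent.ProgramR Fermat.Agent.ProgramR.RR Fermat.Agent.ProgramR.Alg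
open Fermat.Agent.ProgramR.BarField Fermat.Agent.ProgramR.Forms Fermat.Agent.ProgramR.Descent
open Fermat.Agent.S18lib Fermat.Agent.S18lib.RRgen Fermat.Agent.S28lib
open Fermat.Agent.S44lib.Q5.BC

attribute [local instance] Genus.cosetFintype

local notation "Qb" => AlgebraicClosure ℚ

/-! ### the integral series `y = (Σ zₙ qⁿ)/θ(j)` -/

/-- `(Σ zₙ qⁿ)/θ(j)` over `ℤ` -/
def yZ (z : ℕ → ℤ) : LaurentSeries ℤ :=
  zSeries ℤ z * (((isUnit_theta_jqModC ℤ).unit⁻¹ : (LaurentSeries ℤ)ˣ) : LaurentSeries ℤ)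

theorem yZ_mul_theta (z : ℕ → ℤ) : yZ z * theta ℤ (jqModC ℤ) = zSeries ℤ z := by
  have h : (((isUnit_theta_jqModC ℤ).unit : (LaurentSeries ℤ)ˣ) : LaurentSeries ℤ) =
      theta ℤ (jqModC ℤ) := IsUnit.unit_spec _
  rw [yZ, mul_assoc]
  nth_rewrite 2 [← h]
  rw [Units.inv_mul, mul_one]

/-- its image over any ring -/
theorem coeffMap_yZ_mul_theta {R : Type*} [CommRing R] (φ : ℤ →+* R) (z : ℕ → ℤ) :
    coeffMap φ (yZ z) * theta R (jqModC R) = zSeries R z := by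
  have h := congrArg (coeffMap φ) (yZ_mul_theta z)
  rwa [map_mul, coeffMap_theta, ModularCurve.coeffMap_jqModC, coeffMap_zSeries] at h

/-- `y` over `ℚ` -/
def yRat (z : ℕ → ℤ) : LaurentSeries ℚ := coeffMap (Int.castRingHom ℚ) (yZ z)

theorem coeffEmb_yRat (L : Type*) [Field L] [Algebra ℚ L] (z : ℕ → ℤ) :
    coeffEmb L (yRat z) = coeffMap (Int.castRingHom L) (yZ z) := by
  rw [yRat, coeffEmb, coeffMap_coeffMap]
  exact coeffMap_congr (RingHom.ext_int _ _) _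

theorem coeffEmb_yRat_mul_theta (L : Type*) [Field L] [Algebra ℚ L] (z : ℕ → ℤ) :
    coeffEmb L (yRat z) * theta L (jqModC L) = zSeries L z := by
  rw [coeffEmb_yRat]
  exact coeffMap_yZ_mul_theta _ z

/-! ### `q`-expansions of elements of `F_M` lie in the formal function field over `ℂ` -/

variable (M : ℕ) [NeZero M]

theorem qExpFN_mem (h : FN M) :
    qExpFN M h ∈ laurentBaseChange ℂ (modularFunctionFieldFull M) := by
  obtain ⟨x, hx⟩ := (toFFEquiv M).surjective h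
  have h1 : qExpFN M h = qExpFF M (toFF M x) := by
    rw [← toFFEquiv_apply, hx]
    rfl
  rw [h1, qExpFF_toFunField]
  have h2 : coeffMap (RingHom.id ℂ) (x : LaurentSeries ℂ) = (x : LaurentSeries ℂ) := by
    ext n
    rfl
  rw [h2]
  exact x.2

/-- **descent**: `y_ℚ` lies in the rational function field of `X₀(M)` -/
theorem yRat_mem (f : CuspForm (Gamma0 M) 2) (z : ℕ → ℤ)
    (hz : ∀ n, (z n : ℂ) = ModularFormClass.qCoeff (f : ℍ → ℂ) n) :
    yRat z ∈ modularFunctionFieldFull M := by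
  apply mem_of_coeffEmb_mem_laurentBaseChange ℂ
  have h1 := coeffEmb_yRat_mul_theta ℂ z
  have h2 := qExpFN_phi M f z hz
  have h3 : coeffEmb ℂ (yRat z) = - qExpFN M (phi M f) := by
    apply mul_right_cancel₀ (theta_jq_ne_zero ℂ)
    rw [h1, neg_mul, h2, neg_neg]
  rw [h3]
  exact neg_mem (qExpFN_mem M _)

/-- the lift `h_f ∈ F̄_M` -/
def hLift (f : CuspForm (Gamma0 M) 2) (z : ℕ → ℤ)
    (hz : ∀ n, (z n : ℂ) = ModularFormClass.qCoeff (f : ℍ → ℂ) n) : BarField.FBar Qb M :=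
  ⟨coeffEmb Qb (yRat z), coeffEmb_mem_laurentBaseChange Qb (yRat_mem M f z hz)⟩

theorem coe_hLift_mul_theta (f : CuspForm (Gamma0 M) 2) (z : ℕ → ℤ)
    (hz : ∀ n, (z n : ℂ) = ModularFormClass.qCoeff (f : ℍ → ℂ) n) :
    ((hLift M f z hz : BarField.FBar Qb M) : LaurentSeries Qb) * theta Qb (jqModC Qb) =
      zSeries Qb z :=
  coeffEmb_yRat_mul_theta Qb z

/-- `ΦM h_f = - phi f` -/
theorem ΦM_hLift (f : CuspForm (Gamma0 M) 2) (z : ℕ → ℤ)
    (hz : ∀ n, (z n : ℂ) = ModularFormClass.qCoeff (f : ℍ → ℂ) n) :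
    ΦM M (hLift M f z hz) = - phi M f := by
  apply (qExpFN M).injective
  have h1 : qExpFN M (ΦM M (hLift M f z hz)) =
      coeffMap qbarEmb ((hLift M f z hz : BarField.FBar Qb M) : LaurentSeries Qb) :=
    qExpFF_toFunField M qbarEmb (hLift M f z hz)
  rw [h1, map_neg]
  show coeffMap qbarEmb (coeffEmb Qb (yRat z)) = _
  rw [BarField.coeffMap_coeffEmb]
  have h2 := coeffEmb_yRat_mul_theta ℂ z
  have h3 := qExpFN_phi M f z hz
  apply mul_right_cancel₀ (theta_jq_ne_zero ℂ)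
  rw [neg_mul, h3, neg_neg]
  exact h2

/-! ### regularity -/

instance isSeparable_FBar_ratFunc : Algebra.IsSeparable (RatFunc Qb) (BarField.FBar Qb M) := by
  haveI : Algebra.IsAlgebraic (RatFunc Qb) (BarField.FBar Qb M) := Algebra.IsAlgebraic.of_finite _ _
  exact Algebra.IsAlgebraic.isSeparable_of_perfectField

instance isSeparable_FBar_jF : Algebra.IsSeparable Qb⟮Gin0.jF M⟯ (S18lib.FBar M) := by
  haveI : Algebra.IsAlgebraic Qb⟮Gin0.jF M⟯ (S18lib.FBar M) := Algebra.IsAlgebraic.of_finite _ _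
  exact Algebra.IsAlgebraic.isSeparable_of_perfectField

/-- the trace transfer along `ΦM` -/
theorem trace_ΦM (y : BarField.FBar Qb M) :
    Algebra.trace (RatFunc ℂ) (FN M) (ΦM M y) =
      ratMap qbarEmb (Algebra.trace (RatFunc Qb) (BarField.FBar Qb M) y) :=
  trace_map qbarEmb (ΦM M) (ΦM_algebraMap_ratFunc M) (finrank_FN_eq M).le
    (linearIndependent_ΦM M) y

/-- regularity descends along `ΦM` -/
theorem mem_Omega_of_ΦM_mem (h : BarField.FBar Qb M)
    (hh : ΦM M h ∈ Omega ℂ (FN M) (BN M) (Binf ℂ (BN M)) 0) :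
    h ∈ Omega Qb (BarField.FBar Qb M) (SBar Qb M) (RInf Qb M) 0 :=
  mem_Omega_zero_of_map Qb (BarField.FBar Qb M) (SBar Qb M) (RInf Qb M)
    ℂ (FN M) (BN M) (Binf ℂ (BN M)) qbarEmb (ΦM M) (trace_ΦM M) (exists_BN_eq M)
    (exists_Binf_eq M fun _ hr => ratMap_mem_Ainf qbarEmb hr) h hh

/-- **C1**: the characteristic zero lift of an integral cusp form. -/
theorem exists_regular_lift (f : CuspForm (Gamma0 M) 2) (z : ℕ → ℤ)
    (hz : ∀ n, (z n : ℂ) = ModularFormClass.qCoeff (f : ℍ → ℂ) n) :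
    ∃ h : S18lib.FBar M, h ∈ OmegaOf Qb (Gin0.transcendental_jF M) ∧
      (h : LaurentSeries Qb) * theta Qb (jqModC Qb) = zSeries Qb z := by
  refine ⟨hLift M f z hz, ?_, coe_hLift_mul_theta M f z hz⟩
  have h1 : ΦM M (hLift M f z hz) ∈ Omega ℂ (FN M) (BN M) (Binf ℂ (BN M)) 0 := by
    rw [ΦM_hLift]
    exact neg_mem (phi_mem_Omega M f)
  exact mem_Omega_of_ΦM_mem M _ h1

end Fermat.Agent.S44lib.Q5.C1
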