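/-
S44lib / Q5 / C1 / Final (helper3) — Project LSq, block Q5: **`LiftStmt` HOLDS** (hence `FormsStmt`).

`LiftStmt = C1 (exists_regular_lift, helper3 + helper2/5/8/9) ∘ lift_red (helper8) ∘ B (redF_mem_OmegaK, helper6)`.
-/
import Mathlib
import Fermat.Agent.S44lib.Q5.Forms
import Fermat.Agent.S44lib.Q5.RedInt
import Fermat.Agent.S44lib.Q5.RedOmegaInst
import Fermat.Agent.S44lib.Q5.C1.Lift

set_option autoImplicit false
set_option linter.unusedSectionVars false
set_option linter.style.haveILetI false

noncomputable section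

namespace Fermat.Agent.S44lib.Q5

open AlgebraicCurve ModularCurve IntermediateField CuspForm ModularFormClass CongruenceSubgroup
open Fermat.Agent.S18lib

/-- **`LiftStmt` holds**: every integral cusp form of level `M` lifts to a regular differential of
the reduction `FRes A M`, with the reduced `q`-expansion. -/
theorem liftStmt_holds (A : ValuationSubring (AlgebraicClosure ℚ)) (M : ℕ) [NeZero M] {p : ℕ}
    [Fact p.Prime] (hA : A.LiesOverPrime p) (hpM : ¬ p ∣ M) : LiftStmt A M hA hpM := by
  intro f z hz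
  obtain ⟨h, hΩ, hh⟩ := C1.exists_regular_lift M f z hz
  obtain ⟨hO, hred⟩ := lift_red hpM hA z h hh
  exact ⟨(V.gaussDatum M A hpM hA).redF h, redF_mem_OmegaK hpM hA hΩ hO, hred⟩

/-- **`FormsStmt` holds** -/
theorem formsStmt_holds (A : ValuationSubring (AlgebraicClosure ℚ)) (M : ℕ) [NeZero M] {p : ℕ}
    [Fact p.Prime] (hA : A.LiesOverPrime p) (hpM : ¬ p ∣ M)
    (hdim : DimStmt A M hA hpM) : FormsStmt A M hA hpM :=
  formsStmt_of hA hpM (liftStmt_holds A M hA hpM) hdim

end Fermat.Agent.S44lib.Q5
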