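/-
S44lib / Q5 / C1 / Inst (helper3) — Project LSq, block Q5-C1: the comparison map
`ΦM = ΦBar M qbarEmb : FBar Q̄ M → F_M = FF ℂ (WH0 Γ₀(M))` satisfies the hypotheses of the base
change lemmas `BC.trace_map`, `BC.mem_Omega_zero_of_map`:
semilinear over `ratMap`, equal degrees, preserves linear independence, maps the finite chart
`SBar` into `B_M` and the chart at infinity `RInf` into `Binf ℂ B_M`.
-/
import Mathlib
import Fermat.Agent.S44lib.Q5.BC.RatMap
import Fermat.Agent.ProgramR.BarField.Degree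
import Fermat.Agent.ProgramR.BarField.DegreeUB
import Fermat.Agent.ProgramR.BarField.InftyBar
import Fermat.Agent.ProgramR.Analytic.Gamma0Chart
import Fermat.Agent.ProgramR.Forms.R7

set_option autoImplicit false
set_option linter.unusedSectionVars false
set_option linter.style.haveILetI false

noncomputable section

namespace Fermat.Agent.S44lib.Q5.C1

open Module Polynomial IsDedekindDomain CongruenceSubgroup ModularCurve
open Fermat.Agent.ProgramR Fermat.Agent.ProgramR.RR Fermat.Agent.ProgramR.Alg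
open Fermat.Agent.ProgramR.Forms Fermat.Agent.ProgramR.BarField
open Fermat.Agent.S44lib.Q5.BC

attribute [local instance] Genus.cosetFintype

local notation "Qb" => AlgebraicClosure ℚ

variable (M : ℕ) [NeZero M]

/-- the comparison map `F̄_M → F_M` -/
def ΦM : FBar Qb M →+* FN M := ΦFF M qbarEmb

theorem ΦM_algebraMap_poly (p : Qb[X]) :
    ΦM M (algebraMap Qb[X] (FBar Qb M) p) =
      algebraMap (BN M) (FN M) (algebraMap ℂ[X] (BN M) (p.map qbarEmb)) :=
  ΦFF_algebraMap_poly M qbarEmb p

/-- `ΦM` is semilinear over `ratMap` -/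
theorem ΦM_algebraMap_ratFunc (r : RatFunc Qb) :
    ΦM M (algebraMap (RatFunc Qb) (FBar Qb M) r) =
      algebraMap (RatFunc ℂ) (FN M) (ratMap qbarEmb r) := by
  have h : ((ΦM M).comp (algebraMap (RatFunc Qb) (FBar Qb M))) =
      (algebraMap (RatFunc ℂ) (FN M)).comp (ratMap qbarEmb) := by
    apply IsLocalization.ringHom_ext (nonZeroDivisors Qb[X])
    refine RingHom.ext fun p => ?_
    simp only [RingHom.coe_comp, Function.comp_apply]
    rw [← IsScalarTower.algebraMap_apply Qb[X] (RatFunc Qb) (FBar Qb M), ΦM_algebraMap_poly,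
      ratMap_algebraMap, ← IsScalarTower.algebraMap_apply ℂ[X] (RatFunc ℂ) (FN M),
      IsScalarTower.algebraMap_apply ℂ[X] (BN M) (FN M)]
  exact congrArg (fun f : RatFunc Qb →+* FN M => f r) h

/-- equal degrees `ψ(M)` -/
theorem finrank_FN_eq : finrank (RatFunc ℂ) (FN M) = finrank (RatFunc Qb) (FBar Qb M) := by
  rw [finrank_ratFunc_Qbar, finrank_FF, WH0.finrank_Gamma0]

/-- `ΦM` preserves linear independence over the rational function fields -/
theorem linearIndependent_ΦM (n : ℕ) (b : Fin n → FBar Qb M)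
    (hb : LinearIndependent (RatFunc Qb) b) :
    LinearIndependent (RatFunc ℂ) (fun i => ΦM M (b i)) := by
  have h1 : LinearIndependent Qb[X] b :=
    (LinearIndependent.iff_fractionRing Qb[X] (RatFunc Qb)).2 hb
  have h2 : LinearIndependent ℂ[X] (fun i => ΦM M (b i)) :=
    linearIndependent_poly_ΦBar M qbarEmb b h1
  exact (LinearIndependent.iff_fractionRing ℂ[X] (RatFunc ℂ)).1 h2

/-- the finite chart maps into `B_M` -/
theorem exists_BN_eq (b : SBar Qb M) :
    ∃ b' : BN M, algebraMap (BN M) (FN M) b' = ΦM M (algebraMap (SBar Qb M) (FBar Qb M) b) :=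
  ΦBar_mem_range M qbarEmb b

/-- the chart at infinity maps into `Binf ℂ B_M` -/
theorem exists_Binf_eq
    (hAinf : ∀ r : RatFunc Qb, r ∈ Ainf Qb → ratMap qbarEmb r ∈ Ainf ℂ) (b : RInf Qb M) :
    ∃ b' : Binf ℂ (BN M), algebraMap (Binf ℂ (BN M)) (FN M) b' =
      ΦM M (algebraMap (RInf Qb M) (FBar Qb M) b) := by
  let φ : Ainf Qb →+* Ainf ℂ :=
    ((ratMap qbarEmb).comp (Ainf Qb).subtype).codRestrict (Ainf ℂ) fun r => hAinf r.1 r.2
  have hcomm : (algebraMap (Ainf ℂ) (FN M)).comp φ =
      (ΦM M).comp (algebraMap (Ainf Qb) (FBar Qb M)) := by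
    refine RingHom.ext fun r => ?_
    simp only [RingHom.coe_comp, Function.comp_apply]
    rw [IsScalarTower.algebraMap_apply (Ainf Qb) (RatFunc Qb) (FBar Qb M), ΦM_algebraMap_ratFunc,
      IsScalarTower.algebraMap_apply (Ainf ℂ) (RatFunc ℂ) (FN M)]
    rfl
  have hint : IsIntegral (Ainf ℂ) (ΦM M (b : FBar Qb M)) :=
    IsIntegral.map_of_comp_eq φ (ΦM M) hcomm b.2
  exact ⟨⟨_, hint⟩, rfl⟩

end Fermat.Agent.S44lib.Q5.C1
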